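import Fermat.Agent.S56.P3.Spec

/-!
# S56 / P3 / piece IRR : `ad⁰ρ` is irreducible   (helper934)

`theorem Fermat.Agent.S56.P3.H934.ad0Irreducible : Ad0IrreducibleStatement`

Route (coord/S56-P3.md, sec. IRR):
* a proper non-zero conjugation-stable subspace `W` of the trace-zero endomorphisms yields a stable
  LINE `k·A` (`dim W = 1`: `W` itself; `dim W = 2`: the commutator `[A₁, A₂]` of a basis);
* a stable line contradicts `TWHyp`: over `K = k̄` take an eigenvalue `μ` of `A`; `A² = δ` is scalar,
  so `ρ(g) A ρ(g)⁻¹ = ± A` when `μ ≠ 0`; the eigenspace is stable under the subgroup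
  `{g | ρ(g) A ρ(g)⁻¹ = A}` of index `≤ 2` (resp. under `Γ` when `μ = 0`).
-/

set_option autoImplicit false

open Polynomial

namespace Fermat.Agent.S56.P3.H934

open Fermat.Agent.S56.P3

/-! ## 2×2 matrices -/

section Mat

variable {k : Type} [Field k]

lemma mat_sq_of_trace_zero (M : Matrix (Fin 2) (Fin 2) k) (h : M.trace = 0) :
    M * M = (-M.det) • (1 : Matrix (Fin 2) (Fin 2) k) := by
  rw [Matrix.trace_fin_two] at h
  ext i j
  fin_cases i <;> fin_cases j
  · simp [Matrix.mul_apply, Fin.sum_univ_two, Matrix.det_fin_two]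
    linear_combination M 0 0 * h
  · simp [Matrix.mul_apply, Fin.sum_univ_two, Matrix.det_fin_two]
    linear_combination M 0 1 * h
  · simp [Matrix.mul_apply, Fin.sum_univ_two, Matrix.det_fin_two]
    linear_combination M 1 0 * h
  · simp [Matrix.mul_apply, Fin.sum_univ_two, Matrix.det_fin_two]
    linear_combination M 1 1 * h

/-- Two commuting trace-zero `2×2` matrices are linearly dependent (`2 ≠ 0`). -/
lemma mat_dep_of_commute (h2 : (2 : k) ≠ 0) (M N : Matrix (Fin 2) (Fin 2) k)
    (hM : M.trace = 0) (hN : N.trace = 0) (hc : M * N = N * M) :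
    ∃ x y : k, (x ≠ 0 ∨ y ≠ 0) ∧ x • M + y • N = 0 := by
  rw [Matrix.trace_fin_two] at hM hN
  have e00 := congrFun (congrFun hc 0) 0
  have e01 := congrFun (congrFun hc 0) 1
  have e10 := congrFun (congrFun hc 1) 0
  simp only [Matrix.mul_apply, Fin.sum_univ_two] at e00 e01 e10
  -- notation
  set a := M 0 0 with ha
  set b := M 0 1 with hb
  set c := M 1 0 with hc'
  set d := M 1 1 with hd
  set a' := N 0 0 with ha'
  set b' := N 0 1 with hb'
  set c' := N 1 0 with hc''
  set d' := N 1 1 with hd'
  have hd1 : d = -a := by linear_combination hM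
  have hd2 : d' = -a' := by linear_combination hN
  -- consequences of commutation
  have k1 : b * c' = c * b' := by linear_combination e00
  have k2 : a * b' = b * a' := by
    have : (2 : k) * (a * b' - b * a') = 0 := by
      rw [hd1, hd2] at e01
      linear_combination e01
    have := (mul_eq_zero.1 this).resolve_left h2
    linear_combination this
  have k3 : c * a' = a * c' := by
    have : (2 : k) * (c * a' - a * c') = 0 := by
      rw [hd1, hd2] at e10
      linear_combination e10
    have := (mul_eq_zero.1 this).resolve_left h2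
    linear_combination this
  by_cases hN0 : N = 0
  · exact ⟨0, 1, Or.inr one_ne_zero, by simp [hN0]⟩
  have hex : a' ≠ 0 ∨ b' ≠ 0 ∨ c' ≠ 0 := by
    by_contra hcon
    simp only [not_or, not_not] at hcon
    obtain ⟨h1, h2', h3⟩ := hcon
    apply hN0
    ext i j
    fin_cases i <;> fin_cases j
    · exact h1
    · exact h2'
    · exact h3
    · show d' = 0
      rw [hd2, h1, neg_zero]
  rcases hex with h | h | h
  · refine ⟨a', -a, Or.inl h, ?_⟩
    ext i j
    fin_cases i <;> fin_cases j
    · show a' * a + -a * a' = 0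
      ring
    · show a' * b + -a * b' = 0
      linear_combination -k2
    · show a' * c + -a * c' = 0
      linear_combination k3
    · show a' * d + -a * d' = 0
      rw [hd1, hd2]; ring
  · refine ⟨b', -b, Or.inl h, ?_⟩
    ext i j
    fin_cases i <;> fin_cases j
    · show b' * a + -b * a' = 0
      linear_combination k2
    · show b' * b + -b * b' = 0
      ring
    · show b' * c + -b * c' = 0
      linear_combination -k1
    · show b' * d + -b * d' = 0
      rw [hd1, hd2]; linear_combination -k2
  · refine ⟨c', -c, Or.inl h, ?_⟩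
    ext i j
    fin_cases i <;> fin_cases j
    · show c' * a + -c * a' = 0
      linear_combination -k3
    · show c' * b + -c * b' = 0
      linear_combination k1
    · show c' * c + -c * c' = 0
      ring
    · show c' * d + -c * d' = 0
      rw [hd1, hd2]; linear_combination k3

end Mat

/-! ## Endomorphisms of a 2-dimensional space -/

section EndV

variable {k : Type} [Field k] {V : Type} [AddCommGroup V] [Module k V] [Module.Finite k V]

lemma end_sq_of_trace_zero (hV : Module.finrank k V = 2) (A : Module.End k V)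
    (hA : LinearMap.trace k V A = 0) : ∃ δ : k, A * A = δ • (1 : Module.End k V) := by
  let b : Module.Basis (Fin 2) k V := Module.finBasisOfFinrankEq k V hV
  have htr : (LinearMap.toMatrix b b A).trace = 0 := by
    rw [← LinearMap.trace_eq_matrix_trace k b A, hA]
  refine ⟨-(LinearMap.toMatrix b b A).det, ?_⟩
  apply (LinearMap.toMatrix b b).injective
  rw [LinearMap.toMatrix_mul, mat_sq_of_trace_zero _ htr, map_smul, LinearMap.toMatrix_one]

lemma end_dep_of_commute (hV : Module.finrank k V = 2) (h2 : (2 : k) ≠ 0)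
    (A B : Module.End k V) (hA : LinearMap.trace k V A = 0) (hB : LinearMap.trace k V B = 0)
    (hc : A * B = B * A) : ∃ x y : k, (x ≠ 0 ∨ y ≠ 0) ∧ x • A + y • B = 0 := by
  let b : Module.Basis (Fin 2) k V := Module.finBasisOfFinrankEq k V hV
  have htrA : (LinearMap.toMatrix b b A).trace = 0 := by
    rw [← LinearMap.trace_eq_matrix_trace k b A, hA]
  have htrB : (LinearMap.toMatrix b b B).trace = 0 := by
    rw [← LinearMap.trace_eq_matrix_trace k b B, hB]
  have hcm : LinearMap.toMatrix b b A * LinearMap.toMatrix b b B =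
      LinearMap.toMatrix b b B * LinearMap.toMatrix b b A := by
    rw [← LinearMap.toMatrix_mul, ← LinearMap.toMatrix_mul, hc]
  obtain ⟨x, y, hxy, h⟩ := mat_dep_of_commute h2 _ _ htrA htrB hcm
  refine ⟨x, y, hxy, ?_⟩
  apply (LinearMap.toMatrix b b).injective
  rw [map_add, map_smul, map_smul, h, map_zero]

/-- Base change to a field extension is injective on endomorphisms. -/
lemma baseChange_eq_zero (hV : Module.finrank k V = 2) (K : Type) [Field K] [Algebra k K]
    (A : Module.End k V) (h : A.baseChange K = 0) : A = 0 := by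
  let b : Module.Basis (Fin 2) k V := Module.finBasisOfFinrankEq k V hV
  apply (LinearMap.toMatrix b b).injective
  have h1 := LinearMap.toMatrix_baseChange (A := K) A b b
  rw [h, map_zero] at h1
  rw [map_zero]
  ext i j
  have h2 := congrFun (congrFun h1 i) j
  simp only [Matrix.zero_apply, Matrix.map_apply] at h2
  have hinj := (algebraMap k K).injective
  rw [Matrix.zero_apply]
  apply hinj
  rw [← h2, map_zero]

end EndV

/-! ## A conjugation-stable line contradicts `TWHyp` -/

section Line

variable {k : Type} [Field k] {V : Type} [AddCommGroup V] [Module k V] [Module.Finite k V]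
variable {Γ : Type} [Group Γ]

lemma two_ne_zero_of_char (p : ℕ) [Fact p.Prime] (hp2 : p ≠ 2) (hp : (p : k) = 0) :
    (2 : k) ≠ 0 := by
  intro h2
  obtain ⟨m, hm⟩ : ∃ m, p = 2 * m + 1 := by
    rcases Nat.Prime.eq_two_or_odd' (Fact.out : p.Prime) with h | h
    · exact absurd h hp2
    · exact h
  rw [hm] at hp
  push_cast at hp
  rw [h2, zero_mul, zero_add] at hp
  exact one_ne_zero hp

lemma rho_mul_inv (ρ : Γ →* Module.End k V) (g : Γ) : ρ g * ρ g⁻¹ = 1 := by
  rw [← map_mul, mul_inv_cancel, map_one]

lemma rho_inv_mul (ρ : Γ →* Module.End k V) (g : Γ) : ρ g⁻¹ * ρ g = 1 := by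
  rw [← map_mul, inv_mul_cancel, map_one]

/-- Conjugation by `ρ g`. -/
def conj (ρ : Γ →* Module.End k V) (g : Γ) (X : Module.End k V) : Module.End k V :=
  ρ g * X * ρ g⁻¹

lemma conj_mul (ρ : Γ →* Module.End k V) (a b : Γ) (X : Module.End k V) :
    conj ρ (a * b) X = conj ρ a (conj ρ b X) := by
  unfold conj
  rw [mul_inv_rev, map_mul, map_mul]
  simp only [mul_assoc]

lemma conj_one (ρ : Γ →* Module.End k V) (X : Module.End k V) : conj ρ 1 X = X := by
  unfold conj
  rw [inv_one, map_one, one_mul, mul_one]

lemma conj_smul (ρ : Γ →* Module.End k V) (g : Γ) (c : k) (X : Module.End k V) :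
    conj ρ g (c • X) = c • conj ρ g X := by
  unfold conj
  rw [mul_smul_comm, smul_mul_assoc]

lemma conj_neg (ρ : Γ →* Module.End k V) (g : Γ) (X : Module.End k V) :
    conj ρ g (-X) = -conj ρ g X := by
  unfold conj
  rw [mul_neg, neg_mul]

lemma conj_inv_conj (ρ : Γ →* Module.End k V) (g : Γ) (X : Module.End k V) :
    conj ρ g⁻¹ (conj ρ g X) = X := by
  rw [← conj_mul, inv_mul_cancel, conj_one]

lemma conj_sub (ρ : Γ →* Module.End k V) (g : Γ) (X Y : Module.End k V) :
    conj ρ g (X - Y) = conj ρ g X - conj ρ g Y := by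
  unfold conj
  rw [mul_sub, sub_mul]

lemma conj_add (ρ : Γ →* Module.End k V) (g : Γ) (X Y : Module.End k V) :
    conj ρ g (X + Y) = conj ρ g X + conj ρ g Y := by
  unfold conj
  rw [mul_add, add_mul]

lemma conj_mul_mul (ρ : Γ →* Module.End k V) (g : Γ) (X Y : Module.End k V) :
    conj ρ g (X * Y) = conj ρ g X * conj ρ g Y := by
  unfold conj
  calc ρ g * (X * Y) * ρ g⁻¹ = ρ g * X * (1 : Module.End k V) * Y * ρ g⁻¹ := by
        rw [mul_one]; simp only [mul_assoc]
    _ = ρ g * X * (ρ g⁻¹ * ρ g) * Y * ρ g⁻¹ := by rw [rho_inv_mul]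
    _ = ρ g * X * ρ g⁻¹ * (ρ g * Y * ρ g⁻¹) := by simp only [mul_assoc]

/-- The subgroup of elements commuting with `A`. -/
def centr (ρ : Γ →* Module.End k V) (A : Module.End k V) : Subgroup Γ where
  carrier := {g | conj ρ g A = A}
  one_mem' := conj_one ρ A
  mul_mem' := by
    intro a b ha hb
    show conj ρ (a * b) A = A
    rw [conj_mul, (hb : conj ρ b A = A), (ha : conj ρ a A = A)]
  inv_mem' := by
    intro a ha
    show conj ρ a⁻¹ A = A
    have h := conj_inv_conj ρ a A
    rwa [(ha : conj ρ a A = A)] at h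

lemma mem_centr {ρ : Γ →* Module.End k V} {A : Module.End k V} {g : Γ} :
    g ∈ centr ρ A ↔ conj ρ g A = A := Iff.rfl

local notation "K" => AlgebraicClosure k
local notation "VK" => TensorProduct k (AlgebraicClosure k) V

theorem no_stable_line (ρ : Γ →* Module.End k V) (p : ℕ) [Fact p.Prime] (hp2 : p ≠ 2)
    (h : TWHyp ρ p) (A : Module.End k V) (hA0 : A ≠ 0) (hAtr : LinearMap.trace k V A = 0)
    (hst : ∀ g : Γ, ∃ c : k, conj ρ g A = c • A) : False := by
  classical
  have h2 : (2 : k) ≠ 0 := two_ne_zero_of_char p hp2 h.char_p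
  let AK : Module.End K VK := A.baseChange K
  let R : Γ → Module.End K VK := fun g => (ρ g).baseChange K
  have hRinv : ∀ g, R g⁻¹ * R g = 1 := fun g => by
    show (ρ g⁻¹).baseChange K * (ρ g).baseChange K = 1
    rw [← LinearMap.baseChange_mul, rho_inv_mul, LinearMap.baseChange_one]
  -- the relation `ρ(g) A = c A ρ(g)` and its base change
  have rel : ∀ (g : Γ) (c : k), conj ρ g A = c • A → ∀ y : VK,
      R g (AK y) = algebraMap k K c • AK (R g y) := by
    intro g c hc y
    have h1 : ρ g * A = c • (A * ρ g) := by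
      calc ρ g * A = ρ g * A * (ρ g⁻¹ * ρ g) := by rw [rho_inv_mul, mul_one]
        _ = (ρ g * A * ρ g⁻¹) * ρ g := by simp only [mul_assoc]
        _ = c • (A * ρ g) := by
            rw [show ρ g * A * ρ g⁻¹ = c • A from hc, smul_mul_assoc]
    have h3 : R g * AK = c • (AK * R g) := by
      show (ρ g).baseChange K * A.baseChange K = c • (A.baseChange K * (ρ g).baseChange K)
      rw [← LinearMap.baseChange_mul, ← LinearMap.baseChange_mul, h1, LinearMap.baseChange_smul]
    have h4 := congrArg (fun f : Module.End K VK => f y) h3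
    simp only [Module.End.mul_apply, LinearMap.smul_apply] at h4
    rw [h4, algebraMap_smul]
  have hc0 : ∀ (g : Γ) (c : k), conj ρ g A = c • A → c ≠ 0 := by
    intro g c hc hc0
    rw [hc0, zero_smul] at hc
    apply hA0
    have := conj_inv_conj ρ g A
    rw [hc] at this
    rw [← this]
    unfold conj
    rw [mul_zero, zero_mul]
  obtain ⟨δ, hδ⟩ := end_sq_of_trace_zero h.finrank_eq A hAtr
  have hδK : ∀ y : VK, AK (AK y) = algebraMap k K δ • y := by
    intro y
    have h3 : AK * AK = δ • (1 : Module.End K VK) := by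
      show A.baseChange K * A.baseChange K = δ • 1
      rw [← LinearMap.baseChange_mul, hδ, LinearMap.baseChange_smul, LinearMap.baseChange_one]
    have h4 := congrArg (fun f : Module.End K VK => f y) h3
    simp only [Module.End.mul_apply, LinearMap.smul_apply, Module.End.one_apply] at h4
    rw [h4, algebraMap_smul]
  have hfr : Module.finrank K VK = 2 := by
    show Module.finrank K (TensorProduct k K V) = 2
    rw [Module.finrank_baseChange, h.finrank_eq]
  haveI : Nontrivial VK := Module.nontrivial_of_finrank_pos (R := K) (by rw [hfr]; norm_num)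
  obtain ⟨μ, hμ⟩ := Module.End.exists_eigenvalue AK
  obtain ⟨x, hx⟩ := hμ.exists_hasEigenvector
  have hxe : AK x = μ • x := hx.apply_eq_smul
  have hx0 : x ≠ 0 := hx.2
  -- eigenvalues square to δ
  have hsq : ∀ (ν : K) (y : VK), y ≠ 0 → AK y = ν • y → ν * ν = algebraMap k K δ := by
    intro ν y hy hν
    have h1 := hδK y
    rw [hν, map_smul, hν, smul_smul] at h1
    have h3 : (ν * ν - algebraMap k K δ) • y = 0 :=
      (sub_smul (ν * ν) (algebraMap k K δ) y).trans (by rw [h1, sub_self])
    rcases smul_eq_zero.1 h3 with h4 | h4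
    · exact sub_eq_zero.1 h4
    · exact absurd h4 hy
  let L : Submodule K VK := Module.End.eigenspace AK μ
  have hLmem : ∀ y : VK, y ∈ L ↔ AK y = μ • y := fun y => Module.End.mem_eigenspace_iff
  have hLbot : L ≠ ⊥ := by
    intro hL
    have hxL : x ∈ L := (hLmem x).2 hxe
    rw [hL, Submodule.mem_bot] at hxL
    exact hx0 hxL
  have h2K : (2 : K) ≠ 0 := by
    intro h0
    apply h2
    apply (algebraMap k K).injective
    rw [map_ofNat, h0, map_zero]
  have hLtop : L ≠ ⊤ := by
    intro hL
    have hall : ∀ y : VK, AK y = μ • y := fun y => (hLmem y).1 (by rw [hL]; trivial)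
    have hAK : AK = μ • (1 : Module.End K VK) := by
      refine LinearMap.ext fun y => ?_
      rw [hall y]; rfl
    have htr : LinearMap.trace K VK AK = 0 := by
      show LinearMap.trace K (TensorProduct k K V) (A.baseChange K) = 0
      rw [LinearMap.trace_baseChange, hAtr, map_zero]
    rw [hAK, map_smul, LinearMap.trace_one, hfr, smul_eq_mul] at htr
    have hμ0 : μ = 0 := by
      rcases mul_eq_zero.1 htr with h0 | h0
      · exact h0
      · exact absurd (by exact_mod_cast h0) h2K
    rw [hμ0, zero_smul] at hAK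
    exact hA0 (baseChange_eq_zero h.finrank_eq K A hAK)
  -- action on eigenvectors
  have hact : ∀ (g : Γ) (c : k), conj ρ g A = c • A → ∀ (ν : K) (y : VK), AK y = ν • y →
      AK (R g y) = ((algebraMap k K c)⁻¹ * ν) • R g y := by
    intro g c hc ν y hy
    have h1 := rel g c hc y
    rw [hy, map_smul] at h1
    have hcK : algebraMap k K c ≠ 0 := by
      intro h0
      exact hc0 g c hc ((algebraMap k K).injective (by rw [h0, map_zero]))
    rw [mul_smul, h1, smul_smul, inv_mul_cancel₀ hcK, one_smul]
  by_cases hμ0 : μ = 0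
  · -- `ker A` is stable under all of `Γ`
    have hstab : ∀ g : Γ, ∀ y ∈ L, (ρ g).baseChange K y ∈ L := by
      intro g y hy
      obtain ⟨c, hc⟩ := hst g
      rw [hLmem] at hy ⊢
      have := hact g c hc μ y hy
      rw [hμ0, mul_zero, zero_smul] at this
      show AK (R g y) = μ • R g y
      rw [this, hμ0, zero_smul]
    rcases h.absIrr L hstab with h0 | h0
    · exact hLbot h0
    · exact hLtop h0
  · -- `c(g) = ± 1`
    have hpm : ∀ g : Γ, conj ρ g A = A ∨ conj ρ g A = -A := by
      intro g
      obtain ⟨c, hc⟩ := hst g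
      have hcK : algebraMap k K c ≠ 0 := by
        intro h0
        exact hc0 g c hc ((algebraMap k K).injective (by rw [h0, map_zero]))
      have hy0 : R g x ≠ 0 := by
        intro h0
        apply hx0
        have h1 : (R g⁻¹ * R g) x = x := by rw [hRinv]; rfl
        rw [Module.End.mul_apply, h0, map_zero] at h1
        exact h1.symm
      have h1 := hsq _ (R g x) hy0 (hact g c hc μ x hxe)
      have h3 := hsq μ x hx0 hxe
      have h4 : (algebraMap k K c) * (algebraMap k K c) = 1 := by
        have h5 : (algebraMap k K c)⁻¹ * μ * ((algebraMap k K c)⁻¹ * μ) = μ * μ := by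
          rw [h1, h3]
        have hμμ : μ * μ ≠ 0 := mul_ne_zero hμ0 hμ0
        have h6 : (algebraMap k K c) * (algebraMap k K c) *
            ((algebraMap k K c)⁻¹ * μ * ((algebraMap k K c)⁻¹ * μ)) = μ * μ := by
          field_simp
        rw [h5] at h6
        exact mul_right_cancel₀ hμμ (h6.trans (one_mul _).symm)
      have h8 : c * c = 1 := by
        apply (algebraMap k K).injective
        rw [map_mul, h4, map_one]
      have h9 : (c - 1) * (c + 1) = 0 := by linear_combination h8
      rcases mul_eq_zero.1 h9 with h10 | h10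
      · left
        rw [hc, sub_eq_zero.1 h10, one_smul]
      · right
        rw [hc, eq_neg_of_add_eq_zero_left h10, neg_smul, one_smul]
    have hstab : ∀ g ∈ centr ρ A, ∀ y ∈ L, (ρ g).baseChange K y ∈ L := by
      intro g hg y hy
      have hc : conj ρ g A = (1 : k) • A := by rw [one_smul]; exact hg
      rw [hLmem] at hy ⊢
      have := hact g 1 hc μ y hy
      rw [map_one, inv_one, one_mul] at this
      exact this
    by_cases hall : ∀ g : Γ, g ∈ centr ρ A
    · rcases h.absIrr L (fun g => hstab g (hall g)) with h0 | h0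
      · exact hLbot h0
      · exact hLtop h0
    · simp only [not_forall] at hall
      obtain ⟨a, ha⟩ := hall
      have ha' : conj ρ a A = -A := (hpm a).resolve_left ha
      have hidx : (centr ρ A).index = 2 := by
        rw [Subgroup.index_eq_two_iff]
        refine ⟨a, fun b => ?_⟩
        by_cases hb : b ∈ centr ρ A
        · refine Or.inr ⟨hb, fun hba => ha ?_⟩
          have := (centr ρ A).mul_mem ((centr ρ A).inv_mem hb) hba
          rwa [inv_mul_cancel_left] at this
        · refine Or.inl ⟨?_, hb⟩
          have hb' : conj ρ b A = -A := (hpm b).resolve_left hb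
          show conj ρ (b * a) A = A
          rw [conj_mul, ha', conj_neg, hb', neg_neg]
      rcases h.tw K (centr ρ A) hidx L hstab with h0 | h0
      · exact hLbot h0
      · exact hLtop h0

end Line

/-! ## The main theorem -/

/-- **Piece IRR**: under `TWHyp`, `ad⁰ρ` is irreducible. -/
theorem ad0Irreducible : Ad0IrreducibleStatement := by
  intro k _ V _ _ _ Γ _ ρ p _ hp2 h W hWtr hWst hWne A hA
  classical
  by_contra hAW
  have h2 : (2 : k) ≠ 0 := two_ne_zero_of_char p hp2 h.char_p
  have hWst' : ∀ g : Γ, ∀ X ∈ W, conj ρ g X ∈ W := hWst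
  -- `1 ≤ finrank W ≤ 2`
  let T : Submodule k (Module.End k V) := LinearMap.ker (LinearMap.trace k V)
  have hWT : W ≤ T := fun X hX => LinearMap.mem_ker.2 (hWtr X hX)
  have hAT : A ∈ T := LinearMap.mem_ker.2 hA
  have hWltT : W < T := lt_of_le_of_ne hWT (fun heq => hAW (heq ▸ hAT))
  have hTne : T ≠ ⊤ := by
    intro hT
    have h1 : (1 : Module.End k V) ∈ T := by rw [hT]; trivial
    rw [LinearMap.mem_ker, LinearMap.trace_one, h.finrank_eq] at h1
    exact h2 (by exact_mod_cast h1)
  have hfinEnd : Module.finrank k (Module.End k V) = 4 := by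
    show Module.finrank k (V →ₗ[k] V) = 4
    rw [Module.finrank_linearMap, h.finrank_eq]
  have hT3 : Module.finrank k T < 4 := hfinEnd ▸ Submodule.finrank_lt hTne
  have hW3 : Module.finrank k W < Module.finrank k T := Submodule.finrank_lt_finrank_of_lt hWltT
  have hW0 : Module.finrank k W ≠ 0 := fun h0 => hWne (Submodule.finrank_eq_zero.1 h0)
  have hcases : Module.finrank k W = 1 ∨ Module.finrank k W = 2 := by omega
  rcases hcases with h1 | h2'
  · -- `W` is a line
    obtain ⟨v, hv0, hv⟩ := finrank_eq_one_iff'.1 h1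
    refine no_stable_line ρ p hp2 h (v : Module.End k V) ?_ (hWtr _ v.2) ?_
    · intro h0
      exact hv0 (Subtype.ext h0)
    · intro g
      obtain ⟨c, hc⟩ := hv ⟨conj ρ g v, hWst' g v v.2⟩
      exact ⟨c, (congrArg Subtype.val hc).symm⟩
  · -- `W` is a plane: the commutator of a basis spans a stable line
    let b : Module.Basis (Fin 2) k W := Module.finBasisOfFinrankEq k W h2'
    let A1 : Module.End k V := (b 0 : W)
    let A2 : Module.End k V := (b 1 : W)
    have hrep : ∀ X ∈ W, ∃ x y : k, X = x • A1 + y • A2 := by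
      intro X hX
      refine ⟨b.repr ⟨X, hX⟩ 0, b.repr ⟨X, hX⟩ 1, ?_⟩
      have h3 := b.sum_repr ⟨X, hX⟩
      rw [Fin.sum_univ_two] at h3
      have h4 := congrArg Subtype.val h3
      simpa using h4.symm
    have hindep : ∀ x y : k, x • A1 + y • A2 = 0 → x = 0 ∧ y = 0 := by
      intro x y hxy
      have hli := b.linearIndependent
      rw [Fintype.linearIndependent_iff] at hli
      have h3 : ∑ i : Fin 2, (![x, y] i) • b i = 0 := by
        rw [Fin.sum_univ_two]
        apply Subtype.ext
        simpa using hxy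
      exact ⟨by simpa using hli _ h3 0, by simpa using hli _ h3 1⟩
    have hA1tr : LinearMap.trace k V A1 = 0 := hWtr _ (b 0).2
    have hA2tr : LinearMap.trace k V A2 = 0 := hWtr _ (b 1).2
    let B : Module.End k V := A1 * A2 - A2 * A1
    refine no_stable_line ρ p hp2 h B ?_ ?_ ?_
    · intro hB
      have hcomm : A1 * A2 = A2 * A1 := sub_eq_zero.1 hB
      obtain ⟨x, y, hxy, hdep⟩ := end_dep_of_commute h.finrank_eq h2 A1 A2 hA1tr hA2tr hcomm
      obtain ⟨hx, hy⟩ := hindep x y hdep
      rcases hxy with h0 | h0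
      · exact h0 hx
      · exact h0 hy
    · show LinearMap.trace k V (A1 * A2 - A2 * A1) = 0
      rw [map_sub, LinearMap.trace_mul_comm, sub_self]
    · intro g
      obtain ⟨x1, y1, h1⟩ := hrep _ (hWst' g A1 (b 0).2)
      obtain ⟨x2, y2, h2''⟩ := hrep _ (hWst' g A2 (b 1).2)
      refine ⟨x1 * y2 - y1 * x2, ?_⟩
      show conj ρ g (A1 * A2 - A2 * A1) = (x1 * y2 - y1 * x2) • (A1 * A2 - A2 * A1)
      rw [conj_sub, conj_mul_mul, conj_mul_mul, h1, h2'']
      simp only [add_mul, mul_add, smul_mul_assoc, mul_smul_comm]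
      module

end Fermat.Agent.S56.P3.H934
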